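/-
Dwork's lemma, part 1 (helper66): ghost components.

`R` a commutative ring, `r` a prime, every natural number prime to `r` a unit of `R`,
`σ : R →+* R` with `σ x ≡ x ^ r mod r`.  If a sequence `a : ℕ → R` satisfies
`a (r n) ≡ σ (a n) mod r ^ (v_r(n) + 1)` for all `n ≥ 1`, then there is `x : ℕ → R` with
`a n = ∑_{d ∣ n} d * x d ^ (n / d)` for all `n ≥ 1`.
-/
import Mathlib.NumberTheory.Basic
import Mathlib.NumberTheory.Padics.PadicVal.Basic
import Mathlib.NumberTheory.Divisors
import Mathlib.Data.Nat.Factorization.Basic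
import Mathlib.Tactic

set_option autoImplicit false

namespace Fermat.Agent.Lib.Dwork

variable {R : Type*} [CommRing R]

/-- The ghost components of a sequence `x`. -/
def ghost (x : ℕ → R) (n : ℕ) : R := ∑ d ∈ n.divisors, (d : R) * x d ^ (n / d)

/-- The hypotheses of Dwork's lemma. -/
structure DworkHyp (r : ℕ) (σ : R →+* R) (a : ℕ → R) : Prop where
  prime : r.Prime
  unit : ∀ n : ℕ, ¬ r ∣ n → IsUnit (n : R)
  frob : ∀ x : R, (r : R) ∣ σ x - x ^ r
  cong : ∀ n : ℕ, 1 ≤ n → (r : R) ^ (padicValNat r n + 1) ∣ a (r * n) - σ (a n)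

open Classical in
/-- The coordinates: `x n` solves `n * x n = a n - ∑_{d ∣ n, d < n} d * x d ^ (n / d)` whenever
this equation is solvable. -/
noncomputable def coord (a : ℕ → R) (n : ℕ) : R :=
  if h : ∃ y : R, (n : R) * y =
      a n - ∑ d ∈ n.properDivisors.attach, (d.1 : R) * coord a d.1 ^ (n / d.1)
  then Classical.choose h else 0
termination_by n
decreasing_by exact (Nat.mem_properDivisors.1 d.2).2

lemma coord_spec (a : ℕ → R) (n : ℕ)
    (h : ∃ y : R, (n : R) * y = a n - ∑ d ∈ n.properDivisors, (d : R) * coord a d ^ (n / d)) :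
    (n : R) * coord a n = a n - ∑ d ∈ n.properDivisors, (d : R) * coord a d ^ (n / d) := by
  have hsum : ∑ d ∈ n.properDivisors.attach, (d.1 : R) * coord a d.1 ^ (n / d.1)
      = ∑ d ∈ n.properDivisors, (d : R) * coord a d ^ (n / d) :=
    Finset.sum_attach n.properDivisors (fun d => (d : R) * coord a d ^ (n / d))
  have h' : ∃ y : R, (n : R) * y =
      a n - ∑ d ∈ n.properDivisors.attach, (d.1 : R) * coord a d.1 ^ (n / d.1) := by
    rw [hsum]; exact h
  rw [coord, dif_pos h', ← hsum]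
  exact Classical.choose_spec h'

/-- If the defining equation is solvable at `n ≥ 1`, the ghost equation holds at `n`. -/
lemma ghost_coord_of_solvable (a : ℕ → R) (n : ℕ) (hn : n ≠ 0)
    (h : ∃ y : R, (n : R) * y = a n - ∑ d ∈ n.properDivisors, (d : R) * coord a d ^ (n / d)) :
    ghost (coord a) n = a n := by
  have hs := coord_spec a n h
  rw [ghost, ← Nat.insert_self_properDivisors hn,
    Finset.sum_insert Nat.self_notMem_properDivisors, Nat.div_self (Nat.pos_of_ne_zero hn),
    pow_one, hs]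
  ring


/-- A divisor of `r ^ (v + 1) * m` (`r ∤ m`) which does not divide `r ^ v * m` is divisible by
`r ^ (v + 1)`. -/
lemma pow_dvd_of_dvd_of_not_dvd {r : ℕ} (hr : r.Prime) {v m d : ℕ} (_hm : ¬ r ∣ m)
    (hd : d ∣ r ^ (v + 1) * m) (hd' : ¬ d ∣ r ^ v * m) : r ^ (v + 1) ∣ d := by
  have hd0 : d ≠ 0 := by
    rintro rfl
    rw [zero_dvd_iff] at hd
    exact hd' (by
      rw [pow_succ, mul_assoc] at hd
      rcases mul_eq_zero.1 hd with h | h
      · rw [h, zero_mul]
      · rcases mul_eq_zero.1 h with h | h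
        · exact absurd h hr.ne_zero
        · rw [h, mul_zero])
  obtain ⟨k, d', hd'r, rfl⟩ := Nat.exists_eq_pow_mul_and_not_dvd hd0 r hr.ne_one
  have hcop : Nat.Coprime d' r := (Nat.Coprime.symm ((Nat.Prime.coprime_iff_not_dvd hr).2 hd'r))
  have h1 : d' ∣ m := by
    have : d' ∣ r ^ (v + 1) * m := Dvd.dvd.trans (Dvd.intro_left _ rfl) hd
    exact (Nat.Coprime.pow_right (v + 1) hcop).dvd_of_dvd_mul_left this
  by_cases hk : k ≤ v
  · exact absurd (mul_dvd_mul (pow_dvd_pow r hk) h1) hd'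
  · rw [not_le] at hk
    exact Dvd.dvd.trans (pow_dvd_pow r hk) (Dvd.intro _ rfl)

section main

variable {r : ℕ} {σ : R →+* R} {a : ℕ → R}

/-- The key congruence: `d σ(x)^(n/d) ≡ d x^(r n/d) mod r^(v_r(n) + 1)` for `d ∣ n`. -/
lemma key_cong (H : DworkHyp r σ a) (x : R) {n d : ℕ} (hn : n ≠ 0) (hd : d ∣ n) :
    (r : R) ^ (padicValNat r n + 1) ∣ (d : R) * σ x ^ (n / d) - (d : R) * x ^ (r * n / d) := by
  have : Fact r.Prime := ⟨H.prime⟩
  obtain ⟨e, rfl⟩ := hd
  have hd0 : d ≠ 0 := fun h => hn (by rw [h, zero_mul])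
  have he0 : e ≠ 0 := fun h => hn (by rw [h, mul_zero])
  have h1 : d * e / d = e := Nat.mul_div_cancel_left e (Nat.pos_of_ne_zero hd0)
  have h2 : r * (d * e) / d = r * e := by
    rw [show r * (d * e) = d * (r * e) by ring]
    exact Nat.mul_div_cancel_left _ (Nat.pos_of_ne_zero hd0)
  rw [h1, h2, padicValNat.mul hd0 he0, ← mul_sub]
  obtain ⟨e', he'⟩ : r ^ padicValNat r e ∣ e := pow_padicValNat_dvd
  have hA : (r : R) ^ (padicValNat r e + 1) ∣ σ x ^ e - x ^ (r * e) := by
    have h3 := dvd_sub_pow_of_dvd_sub (H.frob x) (padicValNat r e)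
    generalize padicValNat r e = j at he' h3 ⊢
    have h5 : σ x ^ e = (σ x ^ r ^ j) ^ e' := by
      rw [← pow_mul]; exact congrArg _ he'
    have h6 : x ^ (r * e) = ((x ^ r) ^ r ^ j) ^ e' := by
      rw [← pow_mul, ← pow_mul]
      congr 1
      exact congrArg _ he'
    rw [h5, h6]
    exact Dvd.dvd.trans h3 (sub_dvd_pow_sub_pow _ _ _)
  have hB : (r : R) ^ padicValNat r d ∣ (d : R) := by
    have : r ^ padicValNat r d ∣ d := pow_padicValNat_dvd
    have := Nat.cast_dvd_cast (α := R) this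
    rwa [Nat.cast_pow] at this
  rw [add_assoc, pow_add]
  exact mul_dvd_mul hB hA

/-- Solvability of the defining equation of `coord`, given the ghost equations below `n`. -/
lemma solvable (H : DworkHyp r σ a) (n : ℕ) (hn : n ≠ 0)
    (IH : ∀ m, m < n → m ≠ 0 → ghost (coord a) m = a m) :
    ∃ y : R, (n : R) * y = a n - ∑ d ∈ n.properDivisors, (d : R) * coord a d ^ (n / d) := by
  have : Fact r.Prime := ⟨H.prime⟩
  obtain ⟨v, m, hm, rfl⟩ := Nat.exists_eq_pow_mul_and_not_dvd hn r H.prime.ne_one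
  -- it suffices to prove divisibility by `r ^ v`
  suffices hdiv : (r : R) ^ v ∣ a (r ^ v * m)
      - ∑ d ∈ (r ^ v * m).properDivisors, (d : R) * coord a d ^ (r ^ v * m / d) by
    obtain ⟨t, ht⟩ := hdiv
    obtain ⟨u, hu⟩ := (H.unit m hm).exists_right_inv
    refine ⟨u * t, ?_⟩
    rw [ht]
    push_cast
    linear_combination (r : R) ^ v * t * hu
  rcases v with _ | v
  · rw [pow_zero]; exact one_dvd _
  set n' := r ^ v * m with hn'
  have hm0 : m ≠ 0 := fun h => hm (by rw [h]; exact dvd_zero r)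
  have hn'0 : n' ≠ 0 := mul_ne_zero (pow_ne_zero _ H.prime.ne_zero) hm0
  have hnn' : r ^ (v + 1) * m = r * n' := by rw [hn', pow_succ]; ring
  have hlt : n' < r ^ (v + 1) * m := by
    rw [hnn']
    calc n' = 1 * n' := (one_mul _).symm
      _ < r * n' := Nat.mul_lt_mul_of_pos_right H.prime.one_lt (Nat.pos_of_ne_zero hn'0)
  have hval : padicValNat r n' = v := by
    rw [hn', padicValNat.mul (pow_ne_zero _ H.prime.ne_zero) hm0, padicValNat.prime_pow,
      padicValNat.eq_zero_of_not_dvd hm, add_zero]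
  have hcong := H.cong n' (Nat.pos_of_ne_zero hn'0)
  rw [hval] at hcong
  have hIH := IH n' hlt hn'0
  -- `σ (a n')` against the divisors of `n'`
  have hσ : (r : R) ^ (v + 1) ∣ σ (a n')
      - ∑ d ∈ n'.divisors, (d : R) * coord a d ^ (r * n' / d) := by
    rw [← hIH, ghost, map_sum, ← Finset.sum_sub_distrib]
    apply Finset.dvd_sum
    intro d hd
    rw [map_mul, map_natCast, map_pow]
    have := key_cong H (coord a d) hn'0 (Nat.dvd_of_mem_divisors hd)
    rwa [hval] at this
  -- split the proper divisors of `n`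
  have hsub : n'.divisors ⊆ (r * n').properDivisors := by
    intro d hd
    rw [Nat.mem_properDivisors]
    refine ⟨Dvd.dvd.trans (Nat.dvd_of_mem_divisors hd) (Dvd.intro_left _ rfl), ?_⟩
    rw [← hnn']
    exact lt_of_le_of_lt (Nat.divisor_le hd) hlt
  have hrest : (r : R) ^ (v + 1) ∣
      ∑ d ∈ (r * n').properDivisors \ n'.divisors, (d : R) * coord a d ^ (r * n' / d) := by
    apply Finset.dvd_sum
    intro d hd
    rw [Finset.mem_sdiff, Nat.mem_properDivisors, Nat.mem_divisors] at hd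
    have h1 : d ∣ r ^ (v + 1) * m := by rw [hnn']; exact hd.1.1
    have h2 : ¬ d ∣ r ^ v * m := fun h => hd.2 ⟨h, hn'0⟩
    have h3 := pow_dvd_of_dvd_of_not_dvd H.prime hm h1 h2
    have h4 := Nat.cast_dvd_cast (α := R) h3
    rw [Nat.cast_pow] at h4
    exact Dvd.dvd.mul_right h4 _
  rw [hnn', ← Finset.sum_sdiff hsub]
  have : a (r * n') - (∑ d ∈ (r * n').properDivisors \ n'.divisors,
        (d : R) * coord a d ^ (r * n' / d)
      + ∑ d ∈ n'.divisors, (d : R) * coord a d ^ (r * n' / d))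
      = (a (r * n') - σ (a n'))
        + (σ (a n') - ∑ d ∈ n'.divisors, (d : R) * coord a d ^ (r * n' / d))
        - ∑ d ∈ (r * n').properDivisors \ n'.divisors,
            (d : R) * coord a d ^ (r * n' / d) := by ring
  rw [this]
  exact dvd_sub (dvd_add hcong hσ) hrest

/-- **Dwork's lemma, ghost form**: the sequence `a` is the ghost sequence of `coord a`. -/
theorem ghost_coord (H : DworkHyp r σ a) : ∀ n : ℕ, n ≠ 0 → ghost (coord a) n = a n := by
  intro n
  induction n using Nat.strong_induction_on with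
  | _ n IH =>
    intro hn
    exact ghost_coord_of_solvable a n hn (solvable H n hn IH)

/-- **Dwork's lemma, ghost form** (existence). -/
theorem exists_ghost (H : DworkHyp r σ a) :
    ∃ x : ℕ → R, ∀ n : ℕ, n ≠ 0 → a n = ∑ d ∈ n.divisors, (d : R) * x d ^ (n / d) :=
  ⟨coord a, fun n hn => (ghost_coord H n hn).symm⟩

end main

end Fermat.Agent.Lib.Dwork
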