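/-
Dwork's lemma, part 2 (helper66): the integral exponential, in product form.

For `x : ℕ → R` the power series `E = ∏_{d ≥ 1} (1 - x d * X ^ d)⁻¹` has coefficients in `R` and
satisfies `X * E' = E * ∑_{n ≥ 1} ghost x n * X ^ n`.  With part 1 (`ghost_coord`): under the
hypotheses `DworkHyp r σ a` of Dwork's lemma there is `E ∈ 1 + X R⟦X⟧` with
`X * E' = E * ∑_{n ≥ 1} a n * X ^ n`, i.e. `E = exp (∑ a n X ^ n / n)`.
-/
import Fermat.Agent.Lib.Dwork.Ghost
import Mathlib.RingTheory.PowerSeries.Derivative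

set_option autoImplicit false

namespace Fermat.Agent.Lib.Dwork

open PowerSeries

variable {R : Type*} [CommRing R]

/-- The geometric series `(1 - c X ^ d)⁻¹ = ∑ c ^ m X ^ (d m)` (equal to `1` for `d = 0`). -/
noncomputable def geom (c : R) (d : ℕ) : R⟦X⟧ :=
  PowerSeries.mk fun n => if d ∣ n then c ^ (n / d) else 0

lemma coeff_geom (c : R) (d n : ℕ) :
    coeff n (geom c d) = if d ∣ n then c ^ (n / d) else 0 := coeff_mk _ _

lemma geom_zero (c : R) : geom c 0 = 1 := by
  ext n
  rw [coeff_geom, coeff_one]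
  by_cases hn : n = 0
  · subst hn; simp
  · rw [if_neg hn, if_neg]
    rwa [zero_dvd_iff]

lemma geom_mul (c : R) {d : ℕ} (hd : d ≠ 0) : (1 - C c * X ^ d) * geom c d = 1 := by
  ext n
  rw [sub_mul, one_mul, map_sub, mul_assoc, coeff_C_mul, coeff_X_pow_mul', coeff_geom, coeff_one]
  by_cases hn : n = 0
  · subst hn
    have : ¬ d ≤ 0 := fun h => hd (Nat.le_zero.1 h)
    simp [this]
  rw [if_neg hn]
  by_cases hdn : d ≤ n
  · rw [if_pos hdn, coeff_geom]
    have hiff : d ∣ n - d ↔ d ∣ n := by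
      constructor
      · intro h
        have := Nat.dvd_add h (dvd_refl d)
        rwa [Nat.sub_add_cancel hdn] at this
      · intro h
        exact Nat.dvd_sub h (dvd_refl d)
    by_cases hdiv : d ∣ n
    · rw [if_pos hdiv, if_pos (hiff.2 hdiv)]
      obtain ⟨k, rfl⟩ := hdiv
      have hk : k ≠ 0 := fun h => hn (by rw [h, mul_zero])
      obtain ⟨k', rfl⟩ := Nat.exists_eq_succ_of_ne_zero hk
      have h1 : d * (k' + 1) / d = k' + 1 := Nat.mul_div_cancel_left _ (Nat.pos_of_ne_zero hd)
      have h2 : (d * (k' + 1) - d) / d = k' := by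
        have : d * (k' + 1) - d = d * k' := by
          rw [Nat.mul_succ, Nat.add_sub_cancel]
        rw [this]
        exact Nat.mul_div_cancel_left _ (Nat.pos_of_ne_zero hd)
      rw [h1, h2, pow_succ]
      ring
    · rw [if_neg hdiv, if_neg (fun h => hdiv (hiff.1 h))]
      ring
  · rw [if_neg hdn, mul_zero, sub_zero, if_neg]
    intro hdiv
    exact hdn (Nat.le_of_dvd (Nat.pos_of_ne_zero hn) hdiv)

/-- `geom c d ≡ 1 mod X ^ d`. -/
lemma geom_eq (c : R) {d : ℕ} (hd : d ≠ 0) : geom c d = 1 + X ^ d * (C c * geom c d) := by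
  have h := geom_mul c hd
  linear_combination h

/-- The logarithmic derivative of `geom c d`. -/
noncomputable def logD (c : R) (d : ℕ) : R⟦X⟧ := C ((d : R) * c) * X ^ d * geom c d

lemma logD_zero (c : R) : logD c 0 = 0 := by
  rw [logD]; simp

lemma coeff_logD_of_ne (c : R) (d n : ℕ) (hd : d ≠ 0) :
    coeff n (logD c d) = if d ∣ n ∧ n ≠ 0 then (d : R) * c ^ (n / d) else 0 := by
  rw [logD, mul_assoc, coeff_C_mul, coeff_X_pow_mul']
  by_cases hdn : d ≤ n
  · rw [if_pos hdn, coeff_geom]
    have hn : n ≠ 0 := fun h => hd (Nat.le_zero.1 (h ▸ hdn))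
    have hiff : d ∣ n - d ↔ d ∣ n := by
      constructor
      · intro h
        have := Nat.dvd_add h (dvd_refl d)
        rwa [Nat.sub_add_cancel hdn] at this
      · intro h
        exact Nat.dvd_sub h (dvd_refl d)
    by_cases hdiv : d ∣ n
    · rw [if_pos (hiff.2 hdiv), if_pos ⟨hdiv, hn⟩]
      obtain ⟨k, rfl⟩ := hdiv
      have hk : k ≠ 0 := fun h => hn (by rw [h, mul_zero])
      obtain ⟨k', rfl⟩ := Nat.exists_eq_succ_of_ne_zero hk
      have h1 : d * (k' + 1) / d = k' + 1 := Nat.mul_div_cancel_left _ (Nat.pos_of_ne_zero hd)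
      have h2 : (d * (k' + 1) - d) / d = k' := by
        have : d * (k' + 1) - d = d * k' := by
          rw [Nat.mul_succ, Nat.add_sub_cancel]
        rw [this]
        exact Nat.mul_div_cancel_left _ (Nat.pos_of_ne_zero hd)
      rw [h1, h2, pow_succ]
      ring
    · rw [if_neg (fun h => hdiv (hiff.1 h)), if_neg (fun h => hdiv h.1), mul_zero]
  · rw [if_neg hdn, mul_zero, if_neg]
    rintro ⟨hdiv, hn⟩
    exact hdn (Nat.le_of_dvd (Nat.pos_of_ne_zero hn) hdiv)

lemma coeff_logD (c : R) (d n : ℕ) :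
    coeff n (logD c d) = if d ∣ n ∧ n ≠ 0 then (d : R) * c ^ (n / d) else 0 := by
  rcases Nat.eq_zero_or_pos d with rfl | hd
  · rw [logD_zero, map_zero, if_neg]
    rintro ⟨h, hn⟩
    exact hn (zero_dvd_iff.1 h)
  · exact coeff_logD_of_ne c d n hd.ne'

/-- `X * G' = G * logD` for `G = geom c d`. -/
lemma geom_ode (c : R) (d : ℕ) : X * d⁄dX R (geom c d) = geom c d * logD c d := by
  cases d with
  | zero => rw [geom_zero, logD_zero, derivative_one, mul_zero, mul_zero]
  | succ e =>
    have hu := geom_mul c (d := e + 1) (by omega)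
    have hder := congrArg (d⁄dX R) hu
    rw [Derivation.leibniz, derivative_one, smul_eq_mul, smul_eq_mul, map_sub, derivative_one,
      zero_sub, Derivation.leibniz, derivative_C, smul_zero, add_zero, smul_eq_mul,
      derivative_pow, derivative_X, mul_one, Nat.add_sub_cancel] at hder
    rw [logD]
    have hXe : (X : R⟦X⟧) ^ (e + 1) = X * X ^ e := pow_succ' X e
    have hC : (C ((((e + 1 : ℕ) : R)) * c) : R⟦X⟧) = ((e + 1 : ℕ) : R⟦X⟧) * C c := by
      rw [map_mul, map_natCast]
    rw [hC, hXe]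
    rw [hXe] at hu hder
    linear_combination (X * geom c (e + 1)) * hder - (X * d⁄dX R (geom c (e + 1))) * hu

/-- The partial products `∏_{d ≤ N} (1 - x d X ^ d)⁻¹`. -/
noncomputable def EN (x : ℕ → R) (N : ℕ) : R⟦X⟧ := ∏ d ∈ Finset.range (N + 1), geom (x d) d

/-- The partial sums of the logarithmic derivatives. -/
noncomputable def AN (x : ℕ → R) (N : ℕ) : R⟦X⟧ := ∑ d ∈ Finset.range (N + 1), logD (x d) d

lemma EN_succ (x : ℕ → R) (N : ℕ) : EN x (N + 1) = EN x N * geom (x (N + 1)) (N + 1) :=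
  Finset.prod_range_succ _ _

lemma AN_succ (x : ℕ → R) (N : ℕ) : AN x (N + 1) = AN x N + logD (x (N + 1)) (N + 1) :=
  Finset.sum_range_succ _ _

lemma EN_zero (x : ℕ → R) : EN x 0 = 1 := by
  rw [EN, Finset.prod_range_one, geom_zero]

lemma AN_zero (x : ℕ → R) : AN x 0 = 0 := by
  rw [AN, Finset.sum_range_one, logD_zero]

lemma EN_ode (x : ℕ → R) (N : ℕ) : X * d⁄dX R (EN x N) = EN x N * AN x N := by
  induction N with
  | zero => rw [EN_zero, AN_zero, derivative_one, mul_zero, mul_zero]
  | succ N ih =>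
    rw [EN_succ, AN_succ, Derivation.leibniz, smul_eq_mul, smul_eq_mul]
    linear_combination (geom (x (N + 1)) (N + 1)) * ih
      + (EN x N) * geom_ode (x (N + 1)) (N + 1)

lemma coeff_EN_succ (x : ℕ → R) {n N : ℕ} (h : n ≤ N) :
    coeff n (EN x (N + 1)) = coeff n (EN x N) := by
  have h1 : EN x (N + 1) = EN x N + X ^ (N + 1) * (EN x N * (C (x (N + 1))
      * geom (x (N + 1)) (N + 1))) := by
    rw [EN_succ]
    have := geom_eq (x (N + 1)) (d := N + 1) (by omega)
    linear_combination (EN x N) * this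
  rw [h1, map_add, coeff_X_pow_mul', if_neg (by omega), add_zero]

lemma coeff_EN_of_le (x : ℕ → R) {n N : ℕ} (h : n ≤ N) :
    coeff n (EN x N) = coeff n (EN x n) := by
  induction N, h using Nat.le_induction with
  | base => rfl
  | succ N hN ih => rw [coeff_EN_succ x hN, ih]

lemma coeff_zero_AN (x : ℕ → R) (N : ℕ) : coeff 0 (AN x N) = 0 := by
  rw [AN, map_sum]
  apply Finset.sum_eq_zero
  intro d _
  rw [coeff_logD, if_neg]
  exact fun h => h.2 rfl

lemma coeff_AN (x : ℕ → R) {n N : ℕ} (hn : n ≠ 0) (h : n ≤ N) :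
    coeff n (AN x N) = ghost x n := by
  rw [AN, map_sum, ghost]
  have h1 : ∀ d ∈ Finset.range (N + 1), coeff n (logD (x d) d)
      = if d ∣ n then (d : R) * x d ^ (n / d) else 0 := by
    intro d _
    rw [coeff_logD]
    by_cases hd : d ∣ n
    · rw [if_pos ⟨hd, hn⟩, if_pos hd]
    · rw [if_neg (fun h => hd h.1), if_neg hd]
  rw [Finset.sum_congr rfl h1, ← Finset.sum_filter]
  apply Finset.sum_congr _ (fun _ _ => rfl)
  ext d
  rw [Finset.mem_filter, Finset.mem_range, Nat.mem_divisors]
  constructor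
  · rintro ⟨-, hd⟩
    exact ⟨hd, hn⟩
  · rintro ⟨hd, -⟩
    exact ⟨lt_of_le_of_lt (Nat.le_of_dvd (Nat.pos_of_ne_zero hn) hd) (Nat.lt_succ_of_le h), hd⟩

/-- The infinite product `∏_{d ≥ 1} (1 - x d X ^ d)⁻¹`. -/
noncomputable def dworkExp (x : ℕ → R) : R⟦X⟧ := PowerSeries.mk fun n => coeff n (EN x n)

lemma coeff_dworkExp (x : ℕ → R) {n N : ℕ} (h : n ≤ N) :
    coeff n (dworkExp x) = coeff n (EN x N) := by
  rw [dworkExp, coeff_mk, coeff_EN_of_le x h]

/-- The series `∑_{n ≥ 1} ghost x n X ^ n`. -/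
noncomputable def ghostSeries (x : ℕ → R) : R⟦X⟧ :=
  PowerSeries.mk fun n => if n = 0 then 0 else ghost x n

lemma coeff_ghostSeries (x : ℕ → R) {n N : ℕ} (h : n ≤ N) :
    coeff n (ghostSeries x) = coeff n (AN x N) := by
  rw [ghostSeries, coeff_mk]
  by_cases hn : n = 0
  · subst hn; rw [if_pos rfl, coeff_zero_AN]
  · rw [if_neg hn, coeff_AN x hn h]

lemma coeff_X_mul_derivative (F : R⟦X⟧) (n : ℕ) :
    coeff n (X * d⁄dX R F) = (n : R) * coeff n F := by
  cases n with
  | zero => rw [coeff_zero_X_mul, Nat.cast_zero, zero_mul]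
  | succ k =>
    rw [coeff_succ_X_mul, coeff_derivative]
    push_cast
    ring

theorem constantCoeff_dworkExp (x : ℕ → R) : constantCoeff (dworkExp x) = 1 := by
  rw [← coeff_zero_eq_constantCoeff_apply, coeff_dworkExp x (le_refl 0), EN_zero, coeff_one,
    if_pos rfl]

/-- **The differential equation of the product**: `X E' = E ∑_{n ≥ 1} ghost x n X ^ n`. -/
theorem dworkExp_ode (x : ℕ → R) :
    X * d⁄dX R (dworkExp x) = dworkExp x * ghostSeries x := by
  ext n
  rw [coeff_X_mul_derivative, coeff_dworkExp x (le_refl n), ← coeff_X_mul_derivative,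
    EN_ode, coeff_mul, coeff_mul]
  apply Finset.sum_congr rfl
  rintro ⟨i, j⟩ hij
  rw [Finset.mem_antidiagonal] at hij
  simp only at hij ⊢
  rw [coeff_dworkExp x (show i ≤ n by omega), coeff_ghostSeries x (show j ≤ n by omega)]

/-- The product form: modulo `X ^ (N + 1)` the series `dworkExp x` is the finite product
`∏_{d ≤ N} (1 - x d X ^ d)⁻¹`. -/
theorem coeff_dworkExp_eq_prod (x : ℕ → R) {n N : ℕ} (h : n ≤ N) :
    coeff n (dworkExp x) = coeff n (∏ d ∈ Finset.range (N + 1), geom (x d) d) :=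
  coeff_dworkExp x h

/-- **Dwork's lemma** (existence of the integral exponential): under the hypotheses
`DworkHyp r σ a` there is a power series `E ∈ 1 + X R⟦X⟧` with
`X E' = E ∑_{n ≥ 1} a n X ^ n`; moreover `E = ∏_d (1 - x d X ^ d)⁻¹` where `a` is the ghost
sequence of `x`. -/
theorem exists_exp {r : ℕ} {σ : R →+* R} {a : ℕ → R} (H : DworkHyp r σ a) :
    ∃ (E : R⟦X⟧) (x : ℕ → R), constantCoeff E = 1 ∧
      X * d⁄dX R E = E * PowerSeries.mk (fun n => if n = 0 then 0 else a n) ∧
      (∀ n : ℕ, n ≠ 0 → a n = ghost x n) ∧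
      ∀ n N : ℕ, n ≤ N → coeff n E = coeff n (∏ d ∈ Finset.range (N + 1), geom (x d) d) := by
  refine ⟨dworkExp (coord a), coord a, constantCoeff_dworkExp _, ?_,
    fun n hn => (ghost_coord H n hn).symm, fun n N h => coeff_dworkExp_eq_prod _ h⟩
  rw [dworkExp_ode]
  congr 1
  ext n
  rw [ghostSeries, coeff_mk, coeff_mk]
  by_cases hn : n = 0
  · rw [if_pos hn, if_pos hn]
  · rw [if_neg hn, if_neg hn, ghost_coord H n hn]

/-- **Uniqueness** of the solution of `X F' = F A` with given constant term, over a ring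
without additive torsion. -/
theorem ode_unique [IsAddTorsionFree R] {A F G : R⟦X⟧} (hA : constantCoeff A = 0)
    (hF : X * d⁄dX R F = F * A) (hG : X * d⁄dX R G = G * A)
    (h0 : constantCoeff F = constantCoeff G) : F = G := by
  ext n
  induction n using Nat.strong_induction_on with
  | _ n IH =>
    rcases Nat.eq_zero_or_pos n with rfl | hn
    · rw [coeff_zero_eq_constantCoeff_apply, coeff_zero_eq_constantCoeff_apply, h0]
    have h1 := congrArg (coeff n) hF
    have h2 := congrArg (coeff n) hG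
    rw [coeff_X_mul_derivative, coeff_mul] at h1 h2
    have h3 : ∑ p ∈ Finset.antidiagonal n, coeff p.1 F * coeff p.2 A
        = ∑ p ∈ Finset.antidiagonal n, coeff p.1 G * coeff p.2 A := by
      apply Finset.sum_congr rfl
      rintro ⟨i, j⟩ hij
      rw [Finset.mem_antidiagonal] at hij
      simp only at hij ⊢
      by_cases hj : j = 0
      · subst hj
        rw [coeff_zero_eq_constantCoeff_apply, hA, mul_zero, mul_zero]
      · rw [IH i (by omega)]
    rw [h3, ← h2] at h1
    have h4 : n • coeff n F = n • coeff n G := by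
      rw [nsmul_eq_mul, nsmul_eq_mul]; exact h1
    exact nsmul_right_injective hn.ne' h4

/-- Over a ring without additive torsion the integral exponential is multiplicative in the
ghost sequence. -/
theorem dworkExp_mul_of_ghost [IsAddTorsionFree R] (x y z : ℕ → R)
    (h : ∀ n : ℕ, n ≠ 0 → ghost z n = ghost x n + ghost y n) :
    dworkExp z = dworkExp x * dworkExp y := by
  apply ode_unique (A := ghostSeries z)
  · rw [← coeff_zero_eq_constantCoeff_apply, ghostSeries, coeff_mk, if_pos rfl]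
  · exact dworkExp_ode z
  · have hs : ghostSeries z = ghostSeries x + ghostSeries y := by
      ext n
      rw [map_add, ghostSeries, ghostSeries, ghostSeries, coeff_mk, coeff_mk, coeff_mk]
      by_cases hn : n = 0
      · rw [if_pos hn, if_pos hn, if_pos hn, add_zero]
      · rw [if_neg hn, if_neg hn, if_neg hn, h n hn]
    rw [hs, Derivation.leibniz, smul_eq_mul, smul_eq_mul]
    linear_combination (dworkExp y) * dworkExp_ode x + (dworkExp x) * dworkExp_ode y
  · rw [map_mul, constantCoeff_dworkExp, constantCoeff_dworkExp, constantCoeff_dworkExp,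
      mul_one]

end Fermat.Agent.Lib.Dwork
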